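/-
Row S26, leaf FF5 (helper838).  Mathlib only.

FF5: the function field of an integral scheme `X`, smooth of relative dimension `g` over a
field `K`, has transcendence degree `g` over `K`.

* `isAlgebraic_fractionField_of_quasiFinite` : `S` a domain, quasi-finite over a domain `P`,
  `P → S` injective ⇒ `Frac S` is algebraic over `P`.
* `exists_isTranscendenceBasis_of_isStandardSmooth`, `trdeg_eq_of_isStandardSmooth`,
  `essFiniteType_of_isStandardSmooth` : the algebraic core (standard smooth domains over a field).
* `strHom str : K →+* K(X)` (the same term as `Fermat.Agent.S26.ffStr str`),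
  `exists_smooth_chart`, `exists_isTranscendenceBasis_functionField`,
  `essFiniteType_functionField` : the scheme form.
The statements in the language of `SpecDeg.lean` are in `FF5Spec.lean`.
-/
import Mathlib

set_option autoImplicit false

universe u

open CategoryTheory CategoryTheory.Limits AlgebraicGeometry

namespace Fermat.Agent.S26.H838

/-! ## Algebraic core -/

/-- A domain `S` quasi-finite over a domain `P` with `P → S` injective: the fraction field of
`S` is finite over the fraction field of `P`. -/
theorem finite_fractionRing_of_quasiFinite
    (P S L : Type*) [CommRing P] [IsDomain P] [CommRing S] [IsDomain S] [Field L]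
    [Algebra P S] [Algebra S L] [IsFractionRing S L] [Algebra P L] [IsScalarTower P S L]
    [FaithfulSMul P S] [Algebra.QuasiFinite P S]
    [Algebra (FractionRing P) L] [IsScalarTower P (FractionRing P) L] :
    Module.Finite (FractionRing P) L := by
  have h1 : Algebra.QuasiFinite S L := inferInstance
  have h2 : Algebra.QuasiFinite P L := Algebra.QuasiFinite.trans P S L
  have h3 : Algebra.QuasiFinite (FractionRing P) L :=
    Algebra.QuasiFinite.of_restrictScalars P (FractionRing P) L
  exact Module.Finite.of_quasiFinite

/-- A domain `S` quasi-finite over a domain `P` with `P → S` injective: the fraction field of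
`S` is algebraic over `P`. -/
theorem isAlgebraic_fractionField_of_quasiFinite
    (P S L : Type*) [CommRing P] [IsDomain P] [CommRing S] [IsDomain S] [Field L]
    [Algebra P S] [Algebra S L] [IsFractionRing S L] [Algebra P L] [IsScalarTower P S L]
    [FaithfulSMul P S] [Algebra.QuasiFinite P S] :
    Algebra.IsAlgebraic P L := by
  have hPL : FaithfulSMul P L := by
    rw [faithfulSMul_iff_algebraMap_injective, IsScalarTower.algebraMap_eq P S L]
    exact (IsFractionRing.injective S L).comp (FaithfulSMul.algebraMap_injective P S)
  let : Algebra (FractionRing P) L := FractionRing.liftAlgebra P L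
  have : IsScalarTower P (FractionRing P) L := FractionRing.isScalarTower_liftAlgebra P L
  have h4 : Module.Finite (FractionRing P) L := finite_fractionRing_of_quasiFinite P S L
  have h5 : Algebra.IsAlgebraic (FractionRing P) L := inferInstance
  have h6 : Algebra.IsAlgebraic P (FractionRing P) :=
    IsLocalization.isAlgebraic (FractionRing P) (nonZeroDivisors P)
  exact Algebra.IsAlgebraic.trans P (FractionRing P) L

/-- **FF5, algebraic core.**  A domain `S` which is standard smooth of relative dimension `g`
over a field `K`: its fraction field has a transcendence basis indexed by `Fin g`. -/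
theorem exists_isTranscendenceBasis_of_isStandardSmooth
    (K S L : Type*) [Field K] [CommRing S] [IsDomain S] [Field L]
    [Algebra K S] [Algebra S L] [IsFractionRing S L] [Algebra K L] [IsScalarTower K S L]
    (g : ℕ) (h : (algebraMap K S).IsStandardSmoothOfRelativeDimension g) :
    ∃ x : Fin g → L, IsTranscendenceBasis K x := by
  obtain ⟨φ, hφ, het⟩ := h.exists_etale_mvPolynomial
  algebraize [φ]
  have : IsScalarTower K (MvPolynomial (Fin g) K) S :=
    IsScalarTower.of_algebraMap_eq' (by rw [← hφ]; rfl)
  let : Algebra (MvPolynomial (Fin g) K) L := ((algebraMap S L).comp φ).toAlgebra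
  have : IsScalarTower (MvPolynomial (Fin g) K) S L := IsScalarTower.of_algebraMap_eq' rfl
  have : IsScalarTower K (MvPolynomial (Fin g) K) L := .to₁₂₄ _ _ S _
  have halg : Algebra.IsAlgebraic (MvPolynomial (Fin g) K) L :=
    isAlgebraic_fractionField_of_quasiFinite (MvPolynomial (Fin g) K) S L
  have hPL : FaithfulSMul (MvPolynomial (Fin g) K) L := by
    rw [faithfulSMul_iff_algebraMap_injective,
      IsScalarTower.algebraMap_eq (MvPolynomial (Fin g) K) S L]
    exact (IsFractionRing.injective S L).comp
      (FaithfulSMul.algebraMap_injective (MvPolynomial (Fin g) K) S)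
  exact ⟨_, (IsTranscendenceBasis.mvPolynomial (Fin g) K).algebraMap_comp (A := L)⟩

/-- **FF5, algebraic core (trdeg form).** -/
theorem trdeg_eq_of_isStandardSmooth
    (K S L : Type*) [Field K] [CommRing S] [IsDomain S] [Field L]
    [Algebra K S] [Algebra S L] [IsFractionRing S L] [Algebra K L] [IsScalarTower K S L]
    (g : ℕ) (h : (algebraMap K S).IsStandardSmoothOfRelativeDimension g) :
    Algebra.trdeg K L = g := by
  obtain ⟨x, hx⟩ := exists_isTranscendenceBasis_of_isStandardSmooth K S L g h
  have := hx.lift_cardinalMk_eq_trdeg
  simpa using this.symm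

/-- The fraction field of a standard smooth `K`-algebra is a finitely generated field
extension of `K`. -/
theorem essFiniteType_of_isStandardSmooth
    (K S L : Type*) [Field K] [CommRing S] [IsDomain S] [Field L]
    [Algebra K S] [Algebra S L] [IsFractionRing S L] [Algebra K L] [IsScalarTower K S L]
    (g : ℕ) (h : (algebraMap K S).IsStandardSmoothOfRelativeDimension g) :
    Algebra.EssFiniteType K L := by
  have h1 : Algebra.IsStandardSmoothOfRelativeDimension g K S :=
    (RingHom.isStandardSmoothOfRelativeDimension_algebraMap g).mp h
  have h2 : Algebra.IsStandardSmooth K S :=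
    Algebra.IsStandardSmoothOfRelativeDimension.isStandardSmooth g
  have h3 : Algebra.FinitePresentation K S := inferInstance
  have h4 : Algebra.FiniteType K S := inferInstance
  have h5 : Algebra.EssFiniteType K S := inferInstance
  have h6 : Algebra.EssFiniteType S L :=
    Algebra.EssFiniteType.of_isLocalization L (nonZeroDivisors S)
  exact Algebra.EssFiniteType.comp K S L

/-! ## Scheme form -/

noncomputable section

variable {K : Type u} [Field K] {X : Scheme.{u}} [IsIntegral X]

/-- The structure map `K → K(X)` (the same term as `Fermat.Agent.S26.ffStr`). -/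
def strHom (str : X ⟶ Spec (CommRingCat.of K)) : K →+* X.functionField :=
  ((Scheme.ΓSpecIso (CommRingCat.of K)).inv ≫ str.appTop ≫
    X.presheaf.germ ⊤ (genericPoint X) (TopologicalSpace.Opens.mem_top _)).hom

/-- The structure map `K → Γ(X, V)`. -/
def strHomOpen (str : X ⟶ Spec (CommRingCat.of K)) (V : X.Opens) : K →+* Γ(X, V) :=
  ((Scheme.ΓSpecIso (CommRingCat.of K)).inv ≫ str.appLE ⊤ V le_top).hom

lemma germToFunctionField_strHomOpen (str : X ⟶ Spec (CommRingCat.of K)) (V : X.Opens)
    [Nonempty V] (a : K) :
    algebraMap Γ(X, V) X.functionField (strHomOpen str V a) = strHom str a := by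
  have h : str.appLE ⊤ V le_top ≫ X.germToFunctionField V =
      str.appTop ≫ X.presheaf.germ ⊤ (genericPoint X) (TopologicalSpace.Opens.mem_top _) := by
    simp only [Scheme.Hom.appLE, Category.assoc, Scheme.germToFunctionField,
      X.presheaf.germ_res']
    rfl
  have h2 := congrArg (fun f => ((Scheme.ΓSpecIso (CommRingCat.of K)).inv ≫ f).hom a) h
  simpa [strHomOpen, strHom, RingHom.algebraMap_toAlgebra] using h2

/-- A smooth chart at the generic point: a nonempty affine open `V` such that `K → Γ(X, V)` is
standard smooth of relative dimension `g`. -/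
theorem exists_smooth_chart (str : X ⟶ Spec (CommRingCat.of K)) (g : ℕ)
    [SmoothOfRelativeDimension g str] :
    ∃ V : X.Opens, IsAffineOpen V ∧ Nonempty V ∧
      (strHomOpen str V).IsStandardSmoothOfRelativeDimension g := by
  obtain ⟨U, hU, V, hV, hx, e, hf⟩ :=
    SmoothOfRelativeDimension.exists_isStandardSmoothOfRelativeDimension (n := g) (f := str)
      (genericPoint X)
  have hUtop : U = ⊤ := by
    ext y
    simp only [TopologicalSpace.Opens.coe_top, Set.mem_univ, iff_true, SetLike.mem_coe]
    have hy : y = str (genericPoint X) := Subsingleton.elim _ _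
    rw [hy]
    exact e hx
  subst hUtop
  refine ⟨V, hV, ⟨⟨_, hx⟩⟩, ?_⟩
  exact (RingHom.isStandardSmoothOfRelativeDimension_respectsIso (n := g)).2
    (str.appLE ⊤ V e).hom
    (Scheme.ΓSpecIso (CommRingCat.of K)).symm.commRingCatIsoToRingEquiv hf

/-- **FF5 (scheme form).**  `K(X)` has a transcendence basis over `K` indexed by `Fin g`. -/
theorem exists_isTranscendenceBasis_functionField (str : X ⟶ Spec (CommRingCat.of K)) (g : ℕ)
    [SmoothOfRelativeDimension g str] :
    letI := (strHom str).toAlgebra
    ∃ x : Fin g → X.functionField, IsTranscendenceBasis K x := by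
  obtain ⟨V, hV, hne, hsm⟩ := exists_smooth_chart str g
  let := (strHomOpen str V).toAlgebra
  let := (strHom str).toAlgebra
  have : IsScalarTower K Γ(X, V) X.functionField :=
    IsScalarTower.of_algebraMap_eq (fun a => (germToFunctionField_strHomOpen str V a).symm)
  have : IsFractionRing Γ(X, V) X.functionField :=
    functionField_isFractionRing_of_isAffineOpen X V hV
  exact exists_isTranscendenceBasis_of_isStandardSmooth K Γ(X, V) X.functionField g hsm

/-- `K(X)` is a finitely generated field extension of `K`. -/
theorem essFiniteType_functionField (str : X ⟶ Spec (CommRingCat.of K)) (g : ℕ)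
    [SmoothOfRelativeDimension g str] :
    letI := (strHom str).toAlgebra
    Algebra.EssFiniteType K X.functionField := by
  obtain ⟨V, hV, hne, hsm⟩ := exists_smooth_chart str g
  let := (strHomOpen str V).toAlgebra
  let := (strHom str).toAlgebra
  have : IsScalarTower K Γ(X, V) X.functionField :=
    IsScalarTower.of_algebraMap_eq (fun a => (germToFunctionField_strHomOpen str V a).symm)
  have : IsFractionRing Γ(X, V) X.functionField :=
    functionField_isFractionRing_of_isAffineOpen X V hV
  exact essFiniteType_of_isStandardSmooth K Γ(X, V) X.functionField g hsm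

end

end Fermat.Agent.S26.H838
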