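/-
Row S26, leaf FF5 (helper838), in the language of `SpecDeg.lean`.

For an integral scheme `X` with `str : X ⟶ Spec K` smooth of relative dimension `g`
(in particular for `X : AbVar K` with `IsIntegral X.A`, `g = X.dim`):

* `trdeg_functionField`      : `trdeg_K K(X) = g`  (algebra structure `ffStr str`);
* `eq_of_indep_of_deg_pos`   : `w : Fin (r+1) → K(X)`, `LS.Indep`, `0 < LS.deg` ⇒ `r = g`;
* `indep_of_deg_pos`         : `w : Fin (g+1) → K(X)`, `0 < LS.deg` ⇒ `LS.Indep`;
* `deg_pos_of_indep`         : `w : Fin (g+1) → K(X)`, `LS.Indep` ⇒ `0 < LS.deg`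
                               (so in `Stmt.Alpha` the clause `0 < LS.deg` is automatic);
* `AbVar` versions `abVar_*`.
-/
import Fermat.Agent.S26.SpecDeg
import Fermat.Agent.S26.H838.FF5

set_option autoImplicit false

universe u

open CategoryTheory CategoryTheory.Limits AlgebraicGeometry

namespace Fermat.Agent.S26.H838

noncomputable section

variable {K : Type u} [Field K] {X : Scheme.{u}} [IsIntegral X]

lemma ffStr_eq_strHom (str : X ⟶ Spec (CommRingCat.of K)) : ffStr str = strHom str := rfl

/-- `LS.Indep` is algebraic independence of the ratios for the algebra structure `ffStr`. -/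
lemma indep_iff_algebraicIndependent (str : X ⟶ Spec (CommRingCat.of K)) {r : ℕ}
    (w : Fin (r + 1) → X.functionField) :
    letI := (ffStr str).toAlgebra
    LS.Indep str w ↔ AlgebraicIndependent K (LS.ratios w) := by
  let := (ffStr str).toAlgebra
  rw [algebraicIndependent_iff]
  rfl

/-- `LS.coordField` is the intermediate field generated by the ratios. -/
lemma coordField_eq_adjoin (str : X ⟶ Spec (CommRingCat.of K)) {r : ℕ}
    (w : Fin (r + 1) → X.functionField) :
    letI := (ffStr str).toAlgebra
    LS.coordField str w =
      (IntermediateField.adjoin K (Set.range (LS.ratios w))).toSubfield := by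
  rfl

/-- Positive degree means: `K(X)` is algebraic over the `K`-algebra generated by the ratios. -/
lemma isAlgebraic_adjoin_of_deg_pos (str : X ⟶ Spec (CommRingCat.of K)) {r : ℕ}
    (w : Fin (r + 1) → X.functionField) (hdeg : 0 < LS.deg str w) :
    letI := (ffStr str).toAlgebra
    Algebra.IsAlgebraic (Algebra.adjoin K (Set.range (LS.ratios w))) X.functionField := by
  let := (ffStr str).toAlgebra
  have hfin : Module.Finite (IntermediateField.adjoin K (Set.range (LS.ratios w)))
      X.functionField := Module.finite_of_finrank_pos hdeg
  have halg : Algebra.IsAlgebraic (IntermediateField.adjoin K (Set.range (LS.ratios w)))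
      X.functionField := inferInstance
  exact IntermediateField.isAlgebraic_adjoin_iff_top.mp halg

/-- **FF5 (a).**  The function field of an integral scheme, smooth of relative dimension `g`
over a field `K`, has transcendence degree `g` over `K`. -/
theorem trdeg_functionField (str : X ⟶ Spec (CommRingCat.of K)) (g : ℕ)
    [SmoothOfRelativeDimension g str] :
    letI := (ffStr str).toAlgebra
    Algebra.trdeg K X.functionField = g := by
  let := (ffStr str).toAlgebra
  obtain ⟨x, hx⟩ := exists_isTranscendenceBasis_functionField str g
  have hx' : IsTranscendenceBasis K x := hx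
  have := hx'.lift_cardinalMk_eq_trdeg
  simpa using this.symm

/-- **FF5 (b).**  A system `w_0, …, w_r` with algebraically independent ratios and finite
degree has `r = g`. -/
theorem eq_of_indep_of_deg_pos (str : X ⟶ Spec (CommRingCat.of K)) (g : ℕ)
    [SmoothOfRelativeDimension g str] {r : ℕ} (w : Fin (r + 1) → X.functionField)
    (hind : LS.Indep str w) (hdeg : 0 < LS.deg str w) : r = g := by
  let := (ffStr str).toAlgebra
  have h1 : AlgebraicIndependent K (LS.ratios w) := (indep_iff_algebraicIndependent str w).mp hind
  have h2 := isAlgebraic_adjoin_of_deg_pos str w hdeg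
  have hb : IsTranscendenceBasis K (LS.ratios w) :=
    isTranscendenceBasis_iff_algebraicIndependent_isAlgebraic.mpr ⟨h1, h2⟩
  have h3 := hb.lift_cardinalMk_eq_trdeg
  rw [trdeg_functionField str g] at h3
  simpa using h3

/-- **FF5 (c).**  A system `w_0, …, w_g` of finite degree has algebraically independent
ratios. -/
theorem indep_of_deg_pos (str : X ⟶ Spec (CommRingCat.of K)) (g : ℕ)
    [SmoothOfRelativeDimension g str] (w : Fin (g + 1) → X.functionField)
    (hdeg : 0 < LS.deg str w) : LS.Indep str w := by
  let := (ffStr str).toAlgebra
  have h2 := isAlgebraic_adjoin_of_deg_pos str w hdeg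
  have hinj : FaithfulSMul K X.functionField :=
    (faithfulSMul_iff_algebraMap_injective K X.functionField).mpr (ffStr str).injective
  have hb : IsTranscendenceBasis K (LS.ratios w) := by
    apply Algebra.IsAlgebraic.isTranscendenceBasis_of_lift_le_trdeg_of_finite
    rw [trdeg_functionField str g]
    simp
  exact (indep_iff_algebraicIndependent str w).mpr hb.1

/-- **FF5 (d).**  A system `w_0, …, w_g` with algebraically independent ratios has finite
(positive) degree: `K(X)` is a finite extension of `K(w_1/w_0, …, w_g/w_0)`. -/
theorem deg_pos_of_indep (str : X ⟶ Spec (CommRingCat.of K)) (g : ℕ)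
    [SmoothOfRelativeDimension g str] (w : Fin (g + 1) → X.functionField)
    (hind : LS.Indep str w) : 0 < LS.deg str w := by
  let := (ffStr str).toAlgebra
  have h1 : AlgebraicIndependent K (LS.ratios w) := (indep_iff_algebraicIndependent str w).mp hind
  have hb : IsTranscendenceBasis K (LS.ratios w) := by
    apply h1.isTranscendenceBasis_of_lift_trdeg_le_of_finite
    rw [trdeg_functionField str g]
    simp
  have halg : Algebra.IsAlgebraic (IntermediateField.adjoin K (Set.range (LS.ratios w)))
      X.functionField := hb.isAlgebraic_field
  have hess : Algebra.EssFiniteType K X.functionField := essFiniteType_functionField str g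
  have hess' : Algebra.EssFiniteType (IntermediateField.adjoin K (Set.range (LS.ratios w)))
      X.functionField := Algebra.EssFiniteType.of_comp K _ _
  have hfin : Module.Finite (IntermediateField.adjoin K (Set.range (LS.ratios w)))
      X.functionField := Algebra.finite_of_essFiniteType_of_isAlgebraic
  exact Module.finrank_pos (R := IntermediateField.adjoin K (Set.range (LS.ratios w)))
    (M := X.functionField)

/-! ### Abelian varieties -/

theorem abVar_trdeg_functionField (A : AbVar K) [IsIntegral A.A] :
    letI := (ffStr A.str).toAlgebra
    Algebra.trdeg K A.A.functionField = A.dim :=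
  haveI := A.smoothDim
  trdeg_functionField A.str A.dim

theorem abVar_eq_dim_of_indep_of_deg_pos (A : AbVar K) [IsIntegral A.A] {r : ℕ}
    (w : Fin (r + 1) → A.A.functionField) (hind : LS.Indep A.str w)
    (hdeg : 0 < LS.deg A.str w) : r = A.dim :=
  haveI := A.smoothDim
  eq_of_indep_of_deg_pos A.str A.dim w hind hdeg

theorem abVar_indep_of_deg_pos (A : AbVar K) [IsIntegral A.A]
    (w : Fin (A.dim + 1) → A.A.functionField) (hdeg : 0 < LS.deg A.str w) :
    LS.Indep A.str w :=
  haveI := A.smoothDim
  indep_of_deg_pos A.str A.dim w hdeg

theorem abVar_deg_pos_of_indep (A : AbVar K) [IsIntegral A.A]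
    (w : Fin (A.dim + 1) → A.A.functionField) (hind : LS.Indep A.str w) :
    0 < LS.deg A.str w :=
  haveI := A.smoothDim
  deg_pos_of_indep A.str A.dim w hind

end

end Fermat.Agent.S26.H838
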